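/-
MAZUR package (E1)(idem), abstract part: for a commutative ring `R` acting on an abelian
group `J`, an ideal `I` of `R` and a FINITE `R`-submodule `V` of `J`, there is an element
`e : R` acting on `V` as the idempotent projecting onto the `I`-primary part
`V[I^∞]` along `I^∞ V`; it is unique as an operator on `V`.
-/
import Mathlib

namespace Fermat.Agent.Mazur

section abstract

variable {R : Type*} [CommRing R] {J : Type*} [AddCommGroup J] [Module R J]

/-- `e` acts on `V` as the idempotent cutting out the `I`-primary part of `V`. -/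
def MzeeIdem (I : Ideal R) (V : Submodule R J) (e : R) : Prop :=
  (∀ x ∈ V, e • e • x = e • x) ∧
    ∃ n : ℕ, 1 ≤ n ∧ (∃ s ∈ I ^ n, ∀ x ∈ V, e • x = x - s • x) ∧
      ∀ s ∈ I ^ n, ∀ x ∈ V, e • s • x = 0

theorem MzeeIdem.mono {I : Ideal R} {V V' : Submodule R J} {e : R} (h : MzeeIdem I V e)
    (hV : V' ≤ V) : MzeeIdem I V' e := by
  obtain ⟨h1, n, hn, ⟨s, hs, hse⟩, h3⟩ := h
  exact ⟨fun x hx => h1 x (hV hx), n, hn, ⟨s, hs, fun x hx => hse x (hV hx)⟩,
    fun s hs x hx => h3 s hs x (hV hx)⟩

theorem MzeeIdem.exists_pow {I : Ideal R} {V : Submodule R J} {e : R} (h : MzeeIdem I V e)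
    (m : ℕ) : ∃ s ∈ I ^ m, ∀ x ∈ V, e • x = x - s • x := by
  obtain ⟨h1, n, hn, ⟨s, hs, hse⟩, -⟩ := h
  have hsx : ∀ x ∈ V, s • x = x - e • x := fun x hx => by rw [hse x hx]; abel
  have hidem : ∀ x ∈ V, s • s • x = s • x := by
    intro x hx
    have hex : e • x ∈ V := V.smul_mem e hx
    have : s • (e • x) = 0 := by rw [hsx _ hex, h1 x hx, sub_self]
    conv_lhs => rw [hsx x hx, smul_sub, this, sub_zero]
  have hpow : ∀ k : ℕ, ∀ x ∈ V, s ^ (k + 1) • x = s • x := by
    intro k
    induction k with
    | zero => intro x _; simp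
    | succ k ih =>
      intro x hx
      rw [pow_succ, mul_smul, ih _ (V.smul_mem s hx), hidem x hx]
  rcases Nat.eq_zero_or_pos m with rfl | hm
  · exact ⟨s, by simp, hse⟩
  · refine ⟨s ^ m, ?_, fun x hx => ?_⟩
    · have h1 : s ^ m ∈ (I ^ n) ^ m := Ideal.pow_mem_pow hs m
      rw [← pow_mul] at h1
      exact Ideal.pow_le_pow_right (Nat.le_mul_of_pos_left m hn) h1
    · obtain ⟨k, rfl⟩ := Nat.exists_eq_succ_of_ne_zero hm.ne'
      rw [hpow k x hx, hse x hx]

theorem MzeeIdem.unique {I : Ideal R} {V : Submodule R J} {e e' : R} (h : MzeeIdem I V e)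
    (h' : MzeeIdem I V e') : ∀ x ∈ V, e • x = e' • x := by
  have key : ∀ {a b : R}, MzeeIdem I V a → MzeeIdem I V b → ∀ x ∈ V, a • x = a • b • x := by
    intro a b ha hb x hx
    obtain ⟨-, n, -, -, h3⟩ := ha
    obtain ⟨s, hs, hse⟩ := hb.exists_pow n
    have : x = b • x + s • x := by rw [hse x hx]; abel
    conv_lhs => rw [this, smul_add, h3 s hs x hx, add_zero]
  intro x hx
  rw [key h h' x hx, smul_comm e e' x, ← key h' h x hx]


theorem mzee_exists (I : Ideal R) (V : Submodule R J) [Finite V] : ∃ e, MzeeIdem I V e := by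
  classical
  set Ann : Ideal R := Module.annihilator R V with hAnn
  have hmem : ∀ r : R, r ∈ Ann ↔ ∀ x ∈ V, r • x = 0 := by
    intro r
    rw [hAnn, Module.mem_annihilator]
    constructor
    · intro h x hx
      have := h ⟨x, hx⟩
      simpa using congrArg Subtype.val this
    · intro h x
      ext
      simpa using h x.1 x.2
  set A := R ⧸ Ann
  let mk : R →+* A := Ideal.Quotient.mk Ann
  have hmk0 : ∀ r : R, mk r = 0 ↔ ∀ x ∈ V, r • x = 0 := fun r => by
    rw [← hmem]; exact Ideal.Quotient.eq_zero_iff_mem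
  -- `A` is finite
  have : Finite A := by
    let g : A → (V → V) := fun q => Quotient.liftOn' q (fun r x => r • x) (by
      intro r r' hrr'
      rw [Submodule.quotientRel_def] at hrr'
      funext x
      have := (hmem _).1 hrr' x.1 x.2
      ext
      rw [sub_smul, sub_eq_zero] at this
      simpa using this)
    refine Finite.of_injective g ?_
    intro q q'
    induction q using Quotient.inductionOn' with | _ r => ?_
    induction q' using Quotient.inductionOn' with | _ r' => ?_
    intro hg
    apply (Submodule.Quotient.eq Ann).2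
    refine (hmem _).2 fun x hx => ?_
    have := congrFun hg ⟨x, hx⟩
    have h2 : r • x = r' • x := by simpa [g] using congrArg Subtype.val this
    rw [sub_smul, h2, sub_self]
  have : Finite (Ideal A) := Finite.of_injective (fun K : Ideal A => (K : Set A))
    SetLike.coe_injective
  set IA : Ideal A := I.map mk with hIA
  -- the chain of powers stabilises
  obtain ⟨a, b, hab, hpow⟩ : ∃ a b : ℕ, a < b ∧ IA ^ a = IA ^ b := by
    have : ¬ Function.Injective fun n : ℕ => IA ^ n := not_injective_infinite_finite _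
    simp only [Function.Injective, not_forall] at this
    obtain ⟨a, b, hab, hne⟩ := this
    rcases lt_or_gt_of_ne hne with h | h
    · exact ⟨a, b, h, hab⟩
    · exact ⟨b, a, h, hab.symm⟩
  have hstep : IA ^ (a + 1) = IA ^ (a + 1 + 1) := by
    have h1 : IA ^ (a + 1) = IA ^ a := le_antisymm (Ideal.pow_le_pow_right (Nat.le_succ a))
      (hpow ▸ Ideal.pow_le_pow_right hab)
    rw [pow_succ (IA) (a + 1), h1, ← pow_succ, h1]
  have hstab : ∀ m : ℕ, IA ^ (a + 1 + m) = IA ^ (a + 1) := by
    intro m
    induction m with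
    | zero => rfl
    | succ m ih =>
      rw [← add_assoc, pow_succ, ih, ← pow_succ, ← hstep]
  set n := a + 1 with hn
  have hidem : IsIdempotentElem (IA ^ n) := by
    unfold IsIdempotentElem
    rw [← pow_add, hstab]
  have hfg : (IA ^ n).FG := IsNoetherian.noetherian _
  obtain ⟨ε, hε, hEε⟩ := (Ideal.isIdempotentElem_iff_of_fg _ hfg).1 hidem
  obtain ⟨e, he⟩ := Ideal.Quotient.mk_surjective (I := Ann) (1 - ε)
  have hεmem : ε ∈ (I ^ n).map mk := by
    rw [Ideal.map_pow, ← hIA, hEε]; exact Ideal.mem_span_singleton_self ε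
  obtain ⟨s, hs, hsε⟩ := (Ideal.mem_map_iff_of_surjective mk
    Ideal.Quotient.mk_surjective).1 hεmem
  have he' : mk e = 1 - ε := he
  refine ⟨e, ?_, n, Nat.succ_pos a, ⟨s, hs, ?_⟩, ?_⟩
  · intro x hx
    have : mk (e * e - e) = 0 := by
      rw [map_sub, map_mul, he']
      have := hε.eq
      calc (1 - ε) * (1 - ε) - (1 - ε) = ε * ε - ε := by ring
        _ = 0 := by rw [this, sub_self]
    have := (hmk0 _).1 this x hx
    rw [sub_smul, sub_eq_zero, mul_smul] at this
    exact this
  · intro x hx
    have : mk (e - (1 - s)) = 0 := by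
      rw [map_sub, map_sub, map_one, he', hsε]; ring
    have := (hmk0 _).1 this x hx
    rw [sub_smul, sub_eq_zero, sub_smul, one_smul] at this
    exact this
  · intro s' hs' x hx
    have hs'mem : mk s' ∈ IA ^ n := by
      rw [hIA, ← Ideal.map_pow]; exact Ideal.mem_map_of_mem mk hs'
    rw [hEε, Ideal.mem_span_singleton'] at hs'mem
    obtain ⟨c, hc⟩ := hs'mem
    have : mk (e * s') = 0 := by
      rw [map_mul, he', ← hc]
      have := hε.eq
      calc (1 - ε) * (c * ε) = c * (ε - ε * ε) := by ring
        _ = 0 := by rw [this, sub_self, mul_zero]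
    have := (hmk0 _).1 this x hx
    rw [mul_smul] at this
    exact this

end abstract

end Fermat.Agent.Mazur
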