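/-
MAZUR package (E1)(idem), Hecke instantiation: for a family `T : ι → AddMonoid.End J` of
pairwise commuting endomorphisms of an abelian group `J`, "eigenvalues" `a : ι → ℤ`, and
a prime `P` such that every `J[P^k]` is finite, the idempotents `e k ∈ ℤ[T_i]` cutting out
the `𝔪 = (P, T_i - a_i)`-primary part `M_k` of `J[P^k]`.
-/
import Fermat.Agent.Lib.Mazur.E.Idem.Abstract

namespace Fermat.Agent.Mazur

variable {J : Type*} [AddCommGroup J] {ι : Type*}

/-- The Hecke ring `ℤ[T_i]`, as a type carrying its commutativity proof. -/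
def MzeeHecke (T : ι → AddMonoid.End J) (_hT : ∀ i j, T i * T j = T j * T i) : Type _ :=
  ↥(Subring.closure (Set.range T))

variable (T : ι → AddMonoid.End J) (hT : ∀ i j, T i * T j = T j * T i)

include hT in
theorem mzee_isMulCommutative : IsMulCommutative ↥(Subring.closure (Set.range T)) :=
  Subring.isMulCommutative_closure (by rintro _ ⟨i, rfl⟩ _ ⟨j, rfl⟩; exact hT i j)

noncomputable instance : CommRing (MzeeHecke T hT) :=
  { (Subring.closure (Set.range T)).toRing with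
    mul_comm := fun x y => (mzee_isMulCommutative T hT).is_comm.comm x y }

/-- the inclusion of the Hecke ring into the endomorphisms. -/
noncomputable def MzeeHecke.toEnd : MzeeHecke T hT →+* AddMonoid.End J :=
  Subring.subtype (Subring.closure (Set.range T))

noncomputable instance : Module (MzeeHecke T hT) J := Module.compHom J (MzeeHecke.toEnd T hT)

theorem mzee_smul_def (r : MzeeHecke T hT) (x : J) : r • x = MzeeHecke.toEnd T hT r x := rfl

theorem mzee_toEnd_mem (r : MzeeHecke T hT) :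
    MzeeHecke.toEnd T hT r ∈ Subring.closure (Set.range T) := r.2

/-- the generator `T i` as an element of the Hecke ring. -/
noncomputable def MzeeHecke.gen (i : ι) : MzeeHecke T hT := ⟨T i, Subring.subset_closure ⟨i, rfl⟩⟩

@[simp] theorem mzee_gen_smul (i : ι) (x : J) : MzeeHecke.gen T hT i • x = T i x := rfl

/-- an additive endomorphism commuting with all `T i` commutes with the Hecke ring. -/
theorem mzee_commute (g : AddMonoid.End J) (hg : ∀ i, g * T i = T i * g)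
    (r : MzeeHecke T hT) (x : J) : g (r • x) = r • g x := by
  have hle : Subring.closure (Set.range T) ≤ Subring.centralizer {g} := by
    rw [Subring.closure_le]
    rintro _ ⟨i, rfl⟩
    rw [SetLike.mem_coe, Subring.mem_centralizer_iff]
    intro g' hg'
    rw [Set.mem_singleton_iff] at hg'
    subst hg'
    exact hg i
  have := Subring.mem_centralizer_iff.1 (hle r.2) g rfl
  exact congrArg (fun f : AddMonoid.End J => f x) this

variable (a : ι → ℤ) (P : ℕ)

/-- the ideal `𝔪 = (P, T_i - a_i)` of the Hecke ring. -/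
noncomputable def mzeeIdeal : Ideal (MzeeHecke T hT) :=
  Ideal.span ({(P : MzeeHecke T hT)} ∪
    Set.range fun i => MzeeHecke.gen T hT i - (a i : MzeeHecke T hT))

theorem mzee_P_mem : (P : MzeeHecke T hT) ∈ mzeeIdeal T hT a P :=
  Ideal.subset_span (Or.inl rfl)

theorem mzee_gen_mem (i : ι) :
    MzeeHecke.gen T hT i - (a i : MzeeHecke T hT) ∈ mzeeIdeal T hT a P :=
  Ideal.subset_span (Or.inr ⟨i, rfl⟩)

/-- `J[P^k]` as a module over the Hecke ring. -/
noncomputable def mzeeV (k : ℕ) : Submodule (MzeeHecke T hT) J where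
  carrier := {x | P ^ k • x = 0}
  add_mem' := by
    intro x y hx hy
    simp only [Set.mem_ofPred_eq] at hx hy ⊢
    rw [smul_add, hx, hy, add_zero]
  zero_mem' := by simp
  smul_mem' := by
    intro r x hx
    simp only [Set.mem_ofPred_eq] at hx ⊢
    rw [mzee_smul_def, ← map_nsmul, hx, map_zero]

theorem mem_mzeeV {k : ℕ} {x : J} : x ∈ mzeeV T hT P k ↔ P ^ k • x = 0 := Iff.rfl

theorem mzeeV_mono {k l : ℕ} (h : k ≤ l) : mzeeV T hT P k ≤ mzeeV T hT P l := by
  intro x hx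
  rw [mem_mzeeV] at hx ⊢
  obtain ⟨d, rfl⟩ := Nat.exists_eq_add_of_le h
  rw [pow_add, mul_comm, mul_smul, hx, smul_zero]

/-- elements of `𝔪^(k+1)` kill the `P^k`-torsion eigenvectors. -/
theorem mzee_kill_eigen {k : ℕ} {x : J} (hx : P ^ k • x = 0) (h : ∀ i, T i x = a i • x)
    {s : MzeeHecke T hT} (hs : s ∈ mzeeIdeal T hT a P ^ (k + 1)) : s • x = 0 := by
  set K : Ideal (MzeeHecke T hT) :=
    LinearMap.ker (LinearMap.toSpanSingleton (MzeeHecke T hT) J x) with hK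
  have hKmem : ∀ r : MzeeHecke T hT, r ∈ K ↔ r • x = 0 := by
    intro r; rw [hK, LinearMap.mem_ker, LinearMap.toSpanSingleton_apply]
  have hPk : Ideal.span {(P : MzeeHecke T hT)} ^ k ≤ K := by
    rw [Ideal.span_singleton_pow, Ideal.span_le, Set.singleton_subset_iff, SetLike.mem_coe,
      hKmem, ← Nat.cast_pow, Nat.cast_smul_eq_nsmul, hx]
  have h1 : mzeeIdeal T hT a P ≤ K ⊔ Ideal.span {(P : MzeeHecke T hT)} := by
    rw [mzeeIdeal, Ideal.span_le]
    rintro r (hr | ⟨i, rfl⟩)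
    · rw [Set.mem_singleton_iff] at hr
      subst hr
      exact (le_sup_right : _ ≤ K ⊔ _) (Ideal.mem_span_singleton_self _)
    · refine (le_sup_left : K ≤ K ⊔ _) ((hKmem _).2 ?_)
      rw [sub_smul, mzee_gen_smul, Int.cast_smul_eq_zsmul, h i, sub_self]
  have h2 : mzeeIdeal T hT a P ^ (k + 1) ≤ K := by
    calc mzeeIdeal T hT a P ^ (k + 1) ≤ (K ⊔ Ideal.span {(P : MzeeHecke T hT)}) ^ (1 + k) := by
          rw [add_comm]; exact Ideal.pow_right_mono h1 _
      _ ≤ K ^ 1 ⊔ Ideal.span {(P : MzeeHecke T hT)} ^ k := Ideal.sup_pow_add_le_pow_sup_pow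
      _ ≤ K := by rw [pow_one]; exact sup_le le_rfl hPk
  exact (hKmem s).1 (h2 hs)

open Classical in
/-- the idempotent `e k ∈ ℤ[T_i]` (junk value `1` if `J[P^k]` is infinite). -/
noncomputable def mzeeEl (k : ℕ) : MzeeHecke T hT :=
  if h : Finite (mzeeV T hT P k) then
    Classical.choose (@mzee_exists _ _ _ _ _ (mzeeIdeal T hT a P) (mzeeV T hT P k) h)
  else 1

theorem mzeeEl_spec {k : ℕ} (hfin : {x : J | P ^ k • x = 0}.Finite) :
    MzeeIdem (mzeeIdeal T hT a P) (mzeeV T hT P k) (mzeeEl T hT a P k) := by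
  have h : Finite (mzeeV T hT P k) := hfin.to_subtype
  rw [mzeeEl, dif_pos h]
  exact Classical.choose_spec (@mzee_exists _ _ _ _ _ (mzeeIdeal T hT a P) (mzeeV T hT P k) h)

/-- the idempotent `e k` as an endomorphism of `J`. -/
noncomputable def mzeeE (k : ℕ) : AddMonoid.End J := MzeeHecke.toEnd T hT (mzeeEl T hT a P k)

theorem mzeeE_apply (k : ℕ) (x : J) : mzeeE T hT a P k x = mzeeEl T hT a P k • x := rfl

/-- (a) `e k` lies in the Hecke ring. -/
theorem mzeeE_mem (k : ℕ) : mzeeE T hT a P k ∈ Subring.closure (Set.range T) :=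
  mzee_toEnd_mem T hT _

/-- `e k` commutes with everything commuting with the `T i`. -/
theorem mzeeE_commute (g : AddMonoid.End J) (hg : ∀ i, g * T i = T i * g) (k : ℕ) (x : J) :
    g (mzeeE T hT a P k x) = mzeeE T hT a P k (g x) := by
  rw [mzeeE_apply, mzeeE_apply, mzee_commute T hT g hg]

theorem mzeeE_torsion {k l : ℕ} {x : J} (hx : P ^ l • x = 0) :
    P ^ l • mzeeE T hT a P k x = 0 := by
  rw [← map_nsmul, hx, map_zero]

/-- (b) `e k` is idempotent on `J[P^k]`. -/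
theorem mzeeE_idem {k : ℕ} (hfin : {x : J | P ^ k • x = 0}.Finite) {x : J}
    (hx : P ^ k • x = 0) : mzeeE T hT a P k (mzeeE T hT a P k x) = mzeeE T hT a P k x :=
  (mzeeEl_spec T hT a P hfin).1 x hx

/-- (c) `e (k+1)` and `e k` agree on `J[P^k]`. -/
theorem mzeeE_succ {k : ℕ} (hfin : {x : J | P ^ (k + 1) • x = 0}.Finite) {x : J}
    (hx : P ^ k • x = 0) : mzeeE T hT a P (k + 1) x = mzeeE T hT a P k x := by
  have hfin' : {x : J | P ^ k • x = 0}.Finite :=
    hfin.subset fun y hy => mzeeV_mono T hT P (Nat.le_succ k) hy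
  exact ((mzeeEl_spec T hT a P hfin).mono (mzeeV_mono T hT P (Nat.le_succ k))).unique
    (mzeeEl_spec T hT a P hfin') x hx

theorem mzeeE_le {k l : ℕ} (hkl : k ≤ l) (hfin : {x : J | P ^ l • x = 0}.Finite) {x : J}
    (hx : P ^ k • x = 0) : mzeeE T hT a P l x = mzeeE T hT a P k x := by
  have hfin' : {x : J | P ^ k • x = 0}.Finite :=
    hfin.subset fun y hy => mzeeV_mono T hT P hkl hy
  exact ((mzeeEl_spec T hT a P hfin).mono (mzeeV_mono T hT P hkl)).unique
    (mzeeEl_spec T hT a P hfin') x hx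

/-- elements of `J[P^k]` killed by a power of `𝔪` are fixed by `e k`. -/
theorem mzeeE_of_nilp {k : ℕ} (hfin : {x : J | P ^ k • x = 0}.Finite) {x : J}
    (hx : P ^ k • x = 0) (n : ℕ) (h : ∀ s ∈ mzeeIdeal T hT a P ^ n, s • x = 0) :
    mzeeE T hT a P k x = x := by
  obtain ⟨s, hs, hse⟩ := (mzeeEl_spec T hT a P hfin).exists_pow n
  rw [mzeeE_apply, hse x hx, h s hs, sub_zero]

/-- (d) eigenvectors in `J[P^k]` are fixed by `e k`. -/
theorem mzeeE_eigen {k : ℕ} (hfin : {x : J | P ^ k • x = 0}.Finite) {x : J}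
    (hx : P ^ k • x = 0) (h : ∀ i, T i x = a i • x) : mzeeE T hT a P k x = x :=
  mzeeE_of_nilp T hT a P hfin hx (k + 1) fun _ hs => mzee_kill_eigen T hT a P hx h hs

/-- `M_k`, the `𝔪`-primary part of `J[P^k]`, as a module over the Hecke ring. -/
noncomputable def mzeeMsub (k : ℕ) : Submodule (MzeeHecke T hT) J where
  carrier := {x | P ^ k • x = 0 ∧ mzeeE T hT a P k x = x}
  add_mem' := by
    rintro x y ⟨hx, hx'⟩ ⟨hy, hy'⟩
    exact ⟨by rw [smul_add, hx, hy, add_zero], by rw [map_add, hx', hy']⟩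
  zero_mem' := ⟨by simp, map_zero _⟩
  smul_mem' := by
    rintro r x ⟨hx, hx'⟩
    refine ⟨(mzeeV T hT P k).smul_mem r hx, ?_⟩
    rw [mzeeE_apply, smul_comm, ← mzeeE_apply, hx']

/-- `M_k`, the `𝔪`-primary part of `J[P^k]`. -/
noncomputable def mzeeM (k : ℕ) : AddSubgroup J := (mzeeMsub T hT a P k).toAddSubgroup

theorem mem_mzeeM {k : ℕ} {x : J} :
    x ∈ mzeeM T hT a P k ↔ P ^ k • x = 0 ∧ mzeeE T hT a P k x = x := Iff.rfl

theorem mzeeM_stable (g : AddMonoid.End J) (hg : ∀ i, g * T i = T i * g) {k : ℕ} {x : J}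
    (hx : x ∈ mzeeM T hT a P k) : g x ∈ mzeeM T hT a P k := by
  rw [mem_mzeeM] at hx ⊢
  exact ⟨by rw [← map_nsmul, hx.1, map_zero], by rw [← mzeeE_commute T hT a P g hg, hx.2]⟩

theorem mzeeE_mem_M {k : ℕ} (hfin : {x : J | P ^ k • x = 0}.Finite) {x : J}
    (hx : P ^ k • x = 0) : mzeeE T hT a P k x ∈ mzeeM T hT a P k :=
  ⟨mzeeE_torsion T hT a P hx, mzeeE_idem T hT a P hfin hx⟩

theorem mzeeM_succ_iff {k : ℕ} (hfin : {x : J | P ^ (k + 1) • x = 0}.Finite) {x : J} :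
    x ∈ mzeeM T hT a P k ↔ x ∈ mzeeM T hT a P (k + 1) ∧ P ^ k • x = 0 := by
  simp only [mem_mzeeM]
  constructor
  · rintro ⟨hx, hx'⟩
    exact ⟨⟨mzeeV_mono T hT P (Nat.le_succ k) hx, by rw [mzeeE_succ T hT a P hfin hx, hx']⟩, hx⟩
  · rintro ⟨⟨-, hx'⟩, hx⟩
    exact ⟨hx, by rw [← mzeeE_succ T hT a P hfin hx, hx']⟩

theorem mzeeM_le_succ {k : ℕ} (hfin : {x : J | P ^ (k + 1) • x = 0}.Finite) :
    mzeeM T hT a P k ≤ mzeeM T hT a P (k + 1) :=
  fun _ hx => ((mzeeM_succ_iff T hT a P hfin).1 hx).1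

theorem mzeeM_smul {k : ℕ} (hfin : {x : J | P ^ (k + 1) • x = 0}.Finite) {x : J}
    (hx : x ∈ mzeeM T hT a P (k + 1)) : P • x ∈ mzeeM T hT a P k := by
  rw [mem_mzeeM] at hx ⊢
  have h1 : P ^ k • P • x = 0 := by rw [← mul_smul, ← pow_succ, hx.1]
  exact ⟨h1, by rw [← mzeeE_succ T hT a P hfin h1, map_nsmul, hx.2]⟩

theorem mzeeM_smul_surj {k : ℕ} (hfin : {x : J | P ^ (k + 1) • x = 0}.Finite)
    (hdiv : ∀ y : J, ∃ z, P • z = y) {y : J} (hy : y ∈ mzeeM T hT a P k) :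
    ∃ x ∈ mzeeM T hT a P (k + 1), P • x = y := by
  obtain ⟨z, hz⟩ := hdiv y
  rw [mem_mzeeM] at hy
  have hz' : P ^ (k + 1) • z = 0 := by rw [pow_succ, mul_smul, hz, hy.1]
  refine ⟨mzeeE T hT a P (k + 1) z, mzeeE_mem_M T hT a P hfin hz', ?_⟩
  rw [← map_nsmul, hz, mzeeE_succ T hT a P hfin hy.1, hy.2]

theorem mzeeM_le_iff {j k : ℕ} (hjk : j ≤ k) (hfin : {x : J | P ^ k • x = 0}.Finite) {x : J} :
    x ∈ mzeeM T hT a P j ↔ x ∈ mzeeM T hT a P k ∧ P ^ j • x = 0 := by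
  simp only [mem_mzeeM]
  constructor
  · rintro ⟨hx, hx'⟩
    exact ⟨⟨mzeeV_mono T hT P hjk hx, by rw [mzeeE_le T hT a P hjk hfin hx, hx']⟩, hx⟩
  · rintro ⟨⟨-, hx'⟩, hx⟩
    exact ⟨hx, by rw [← mzeeE_le T hT a P hjk hfin hx, hx']⟩

theorem mzeeM_finite {k : ℕ} (hfin : {x : J | P ^ k • x = 0}.Finite) :
    (mzeeM T hT a P k : Set J).Finite :=
  hfin.subset fun _ hx => hx.1

/-- the complementary component `x - e k x` of `x ∈ J[P^k]` lies in `𝔪^n J[P^k]` for all `n`. -/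
theorem mzeeE_compl {k : ℕ} (hfin : {x : J | P ^ k • x = 0}.Finite) {x : J}
    (hx : P ^ k • x = 0) (n : ℕ) :
    ∃ s ∈ mzeeIdeal T hT a P ^ n, x - mzeeE T hT a P k x = s • x := by
  obtain ⟨s, hs, hse⟩ := (mzeeEl_spec T hT a P hfin).exists_pow n
  exact ⟨s, hs, by rw [mzeeE_apply, hse x hx, sub_sub_cancel]⟩

/-- the `𝔪`-adic filtration of `M_k`. -/
noncomputable def mzeeFil (k j : ℕ) : AddSubgroup J :=
  (mzeeIdeal T hT a P ^ j • mzeeMsub T hT a P k).toAddSubgroup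

theorem mzeeFil_zero (k : ℕ) : mzeeFil T hT a P k 0 = mzeeM T hT a P k := by
  rw [mzeeFil, pow_zero, Ideal.one_eq_top, Submodule.top_smul]; rfl

theorem mzeeFil_succ_le (k j : ℕ) : mzeeFil T hT a P k (j + 1) ≤ mzeeFil T hT a P k j := by
  intro x hx
  exact Submodule.smul_mono_left (Ideal.pow_le_pow_right (Nat.le_succ j)) hx

theorem mzeeFil_le (k j : ℕ) : mzeeFil T hT a P k j ≤ mzeeM T hT a P k := by
  intro x hx
  exact Submodule.smul_le_right hx

theorem mzeeFil_ideal_smul {k j : ℕ} {x : J} (hx : x ∈ mzeeFil T hT a P k j)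
    {r : MzeeHecke T hT} (hr : r ∈ mzeeIdeal T hT a P) : r • x ∈ mzeeFil T hT a P k (j + 1) := by
  change r • x ∈ mzeeIdeal T hT a P ^ (j + 1) • mzeeMsub T hT a P k
  rw [pow_succ', Submodule.mul_smul]
  exact Submodule.smul_mem_smul hr hx

/-- `P` maps `Fil j` into `Fil (j+1)`. -/
theorem mzeeFil_P_smul {k j : ℕ} {x : J} (hx : x ∈ mzeeFil T hT a P k j) :
    P • x ∈ mzeeFil T hT a P k (j + 1) := by
  have := mzeeFil_ideal_smul T hT a P hx (mzee_P_mem T hT a P)
  rwa [Nat.cast_smul_eq_nsmul] at this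

/-- `T i - a i` maps `Fil j` into `Fil (j+1)`. -/
theorem mzeeFil_T_sub {k j : ℕ} {x : J} (hx : x ∈ mzeeFil T hT a P k j) (i : ι) :
    T i x - a i • x ∈ mzeeFil T hT a P k (j + 1) := by
  have := mzeeFil_ideal_smul T hT a P hx (mzee_gen_mem T hT a P i)
  rwa [sub_smul, mzee_gen_smul, Int.cast_smul_eq_zsmul] at this

/-- the filtration is exhaustive: `Fil n = 0` for some `n`. -/
theorem mzeeFil_eq_bot {k : ℕ} (hfin : {x : J | P ^ k • x = 0}.Finite) :
    ∃ n, mzeeFil T hT a P k n = ⊥ := by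
  obtain ⟨-, n, -, -, h3⟩ := mzeeEl_spec T hT a P hfin
  refine ⟨n, ?_⟩
  rw [eq_bot_iff]
  intro x hx
  change x ∈ mzeeIdeal T hT a P ^ n • mzeeMsub T hT a P k at hx
  rw [AddSubgroup.mem_bot]
  refine Submodule.smul_induction_on hx ?_ ?_
  · intro r hr m hm
    have h := h3 r hr m hm.1
    rw [smul_comm, ← mzeeE_apply, hm.2] at h
    exact h
  · intro x y hx hy; rw [hx, hy, add_zero]

theorem mzeeFil_stable (g : AddMonoid.End J) (hg : ∀ i, g * T i = T i * g) {k j : ℕ} {x : J}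
    (hx : x ∈ mzeeFil T hT a P k j) : g x ∈ mzeeFil T hT a P k j := by
  change x ∈ mzeeIdeal T hT a P ^ j • mzeeMsub T hT a P k at hx
  change g x ∈ mzeeIdeal T hT a P ^ j • mzeeMsub T hT a P k
  refine Submodule.smul_induction_on hx ?_ ?_
  · intro r hr m hm
    rw [mzee_commute T hT g hg]
    exact Submodule.smul_mem_smul hr (mzeeM_stable T hT a P g hg hm)
  · intro x y hx hy; rw [map_add]; exact add_mem hx hy

end Fermat.Agent.Mazur
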