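/-
MAZUR package (E1)(idem), torsion wrapper: the endomorphisms `T i` of `J` are only assumed to
commute on the `P`-power torsion of `J`.  We restrict everything to `J[P^∞]`, apply
`Hecke.lean` there, and lift the idempotents back to `ℤ⟨T_i⟩ ≤ End J`.
-/
import Fermat.Agent.Lib.Mazur.E.Idem.Hecke

namespace Fermat.Agent.Mazur

variable {J : Type*} [AddCommGroup J] {ι : Type*}

/-- the `P`-power torsion subgroup `J[P^∞]`. -/
def mzetTors (J : Type*) [AddCommGroup J] (P : ℕ) : AddSubgroup J where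
  carrier := {x | ∃ k : ℕ, P ^ k • x = 0}
  add_mem' := by
    rintro x y ⟨k, hk⟩ ⟨l, hl⟩
    refine ⟨k + l, ?_⟩
    have h1 : P ^ (k + l) • x = 0 := by rw [pow_add, mul_comm, mul_smul, hk, smul_zero]
    have h2 : P ^ (k + l) • y = 0 := by rw [pow_add, mul_smul, hl, smul_zero]
    rw [smul_add, h1, h2, add_zero]
  zero_mem' := ⟨0, by simp⟩
  neg_mem' := by
    rintro x ⟨k, hk⟩
    exact ⟨k, by rw [smul_neg, hk, neg_zero]⟩

theorem mem_mzetTors {P : ℕ} {x : J} : x ∈ mzetTors J P ↔ ∃ k : ℕ, P ^ k • x = 0 := Iff.rfl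

/-- a torsion element as an element of `J[P^∞]`. -/
def mzetMk (P : ℕ) (x : J) (k : ℕ) (hx : P ^ k • x = 0) : mzetTors J P :=
  ⟨x, mem_mzetTors.2 ⟨k, hx⟩⟩

@[simp] theorem mzetMk_coe (P : ℕ) (x : J) (k : ℕ) (hx : P ^ k • x = 0) :
    ((mzetMk P x k hx : mzetTors J P) : J) = x := rfl

/-- restriction of endomorphisms to the `P`-power torsion, as a ring homomorphism. -/
def mzetRes (J : Type*) [AddCommGroup J] (P : ℕ) :
    AddMonoid.End J →+* AddMonoid.End ↥(mzetTors J P) where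
  toFun f := (f.comp (mzetTors J P).subtype).codRestrict (mzetTors J P) (by
    rintro ⟨x, k, hk⟩
    exact ⟨k, by
      change P ^ k • f x = 0
      rw [← map_nsmul, hk, map_zero]⟩)
  map_one' := by ext x; rfl
  map_mul' f g := by ext x; rfl
  map_zero' := by ext x; rfl
  map_add' f g := by ext x; rfl

@[simp] theorem mzetRes_apply (P : ℕ) (f : AddMonoid.End J) (x : mzetTors J P) :
    ((mzetRes J P f x : mzetTors J P) : J) = f x := rfl

variable (T : ι → AddMonoid.End J) (a : ι → ℤ) (P : ℕ)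

/-- the restricted operators. -/
def mzetT (i : ι) : AddMonoid.End ↥(mzetTors J P) := mzetRes J P (T i)

variable (hcomm : ∀ (i j : ι) (k : ℕ) (x : J), P ^ k • x = 0 → T i (T j x) = T j (T i x))

include hcomm in
theorem mzetT_comm (i j : ι) : mzetT T P i * mzetT T P j = mzetT T P j * mzetT T P i := by
  ext ⟨x, k, hk⟩
  exact hcomm i j k x hk

theorem mzet_fin {k : ℕ} (hfin : Finite {x : J // P ^ k • x = 0}) :
    {x : mzetTors J P | P ^ k • x = 0}.Finite := by
  have : Finite {x : mzetTors J P // P ^ k • x = 0} := by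
    refine Finite.of_injective
      (fun x : {x : mzetTors J P // P ^ k • x = 0} =>
        (⟨x.1.1, by
          have := congrArg Subtype.val x.2
          rw [AddSubgroup.coe_nsmul] at this
          exact this⟩ : {x : J // P ^ k • x = 0})) ?_
    intro x y hxy
    have := congrArg Subtype.val hxy
    exact Subtype.ext (Subtype.ext this)
  exact Set.finite_coe_iff.1 this

theorem mzet_closure_eq :
    Subring.closure (Set.range (mzetT T P)) =
      (Subring.closure (Set.range T)).map (mzetRes J P) := by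
  rw [RingHom.map_closure, ← Set.range_comp]; rfl

/-- the idempotent `e k`, an element of `ℤ⟨T_i⟩ ≤ End J`. -/
noncomputable def mzetE (k : ℕ) : AddMonoid.End J :=
  Classical.choose (Subring.mem_map.1 (mzet_closure_eq T P ▸
    mzeeE_mem (mzetT T P) (mzetT_comm T P hcomm) a P k))

theorem mzetE_spec (k : ℕ) :
    mzetE T a P hcomm k ∈ Subring.closure (Set.range T) ∧
      mzetRes J P (mzetE T a P hcomm k) = mzeeE (mzetT T P) (mzetT_comm T P hcomm) a P k :=
  Classical.choose_spec (Subring.mem_map.1 (mzet_closure_eq T P ▸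
    mzeeE_mem (mzetT T P) (mzetT_comm T P hcomm) a P k))

/-- (a) -/
theorem mzetE_mem (k : ℕ) : mzetE T a P hcomm k ∈ Subring.closure (Set.range T) :=
  (mzetE_spec T a P hcomm k).1

theorem mzetE_coe (k : ℕ) (x : mzetTors J P) :
    ((mzeeE (mzetT T P) (mzetT_comm T P hcomm) a P k x : mzetTors J P) : J) =
      mzetE T a P hcomm k x := by
  rw [← (mzetE_spec T a P hcomm k).2]; rfl

theorem mzet_smul_eq_zero {k : ℕ} {x : J} (hx : P ^ k • x = 0) :
    P ^ k • mzetMk P x k hx = 0 := by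
  apply Subtype.ext
  rw [AddSubgroup.coe_nsmul]
  exact hx

/-- (b) -/
theorem mzetE_idem {k : ℕ} (hfin : Finite {x : J // P ^ k • x = 0}) {x : J}
    (hx : P ^ k • x = 0) :
    mzetE T a P hcomm k (mzetE T a P hcomm k x) = mzetE T a P hcomm k x := by
  have h := mzeeE_idem (mzetT T P) (mzetT_comm T P hcomm) a P (mzet_fin P hfin)
    (mzet_smul_eq_zero P hx)
  have h2 := congrArg Subtype.val h
  rw [mzetE_coe T a P hcomm, mzetE_coe T a P hcomm] at h2
  exact h2

/-- (c) -/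
theorem mzetE_succ {k : ℕ} (hfin : Finite {x : J // P ^ (k + 1) • x = 0}) {x : J}
    (hx : P ^ k • x = 0) : mzetE T a P hcomm (k + 1) x = mzetE T a P hcomm k x := by
  have h := mzeeE_succ (mzetT T P) (mzetT_comm T P hcomm) a P (mzet_fin P hfin)
    (mzet_smul_eq_zero P hx)
  have h2 := congrArg Subtype.val h
  rwa [mzetE_coe T a P hcomm, mzetE_coe T a P hcomm] at h2

theorem mzetE_le {k l : ℕ} (hkl : k ≤ l) (hfin : Finite {x : J // P ^ l • x = 0}) {x : J}
    (hx : P ^ k • x = 0) : mzetE T a P hcomm l x = mzetE T a P hcomm k x := by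
  have h := mzeeE_le (mzetT T P) (mzetT_comm T P hcomm) a P hkl (mzet_fin P hfin)
    (mzet_smul_eq_zero P hx)
  have h2 := congrArg Subtype.val h
  rwa [mzetE_coe T a P hcomm, mzetE_coe T a P hcomm] at h2

/-- (d) -/
theorem mzetE_eigen {k : ℕ} (hfin : Finite {x : J // P ^ k • x = 0}) {x : J}
    (hx : P ^ k • x = 0) (h : ∀ i, T i x = a i • x) : mzetE T a P hcomm k x = x := by
  have h1 := mzeeE_eigen (mzetT T P) (mzetT_comm T P hcomm) a P (mzet_fin P hfin)
    (mzet_smul_eq_zero P hx) (fun i => by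
      apply Subtype.ext
      change T i x = _
      rw [h i, AddSubgroup.coe_zsmul]
      rfl)
  have h2 := congrArg Subtype.val h1
  rwa [mzetE_coe T a P hcomm] at h2

theorem mzetE_torsion {k l : ℕ} {x : J} (hx : P ^ l • x = 0) :
    P ^ l • mzetE T a P hcomm k x = 0 := by
  rw [← map_nsmul, hx, map_zero]

/-- `M_k`. -/
noncomputable def mzetM (k : ℕ) : AddSubgroup J where
  carrier := {x | P ^ k • x = 0 ∧ mzetE T a P hcomm k x = x}
  add_mem' := by
    rintro x y ⟨hx, hx'⟩ ⟨hy, hy'⟩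
    exact ⟨by rw [smul_add, hx, hy, add_zero], by rw [map_add, hx', hy']⟩
  zero_mem' := ⟨by simp, map_zero _⟩
  neg_mem' := by
    rintro x ⟨hx, hx'⟩
    exact ⟨by rw [smul_neg, hx, neg_zero], by rw [map_neg, hx']⟩

theorem mem_mzetM {k : ℕ} {x : J} :
    x ∈ mzetM T a P hcomm k ↔ P ^ k • x = 0 ∧ mzetE T a P hcomm k x = x := Iff.rfl

theorem mzetM_eq_map (k : ℕ) :
    mzetM T a P hcomm k =
      (mzeeM (mzetT T P) (mzetT_comm T P hcomm) a P k).map (mzetTors J P).subtype := by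
  ext x
  rw [AddSubgroup.mem_map, mem_mzetM]
  constructor
  · rintro ⟨hx, hx'⟩
    refine ⟨mzetMk P x k hx, ⟨mzet_smul_eq_zero P hx, ?_⟩, rfl⟩
    apply Subtype.ext
    rw [mzetE_coe T a P hcomm]; exact hx'
  · rintro ⟨y, ⟨hy, hy'⟩, rfl⟩
    refine ⟨?_, ?_⟩
    · have := congrArg Subtype.val hy
      rw [AddSubgroup.coe_nsmul] at this
      exact this
    · have := congrArg Subtype.val hy'
      rwa [mzetE_coe T a P hcomm] at this

theorem mzetE_mem_M {k : ℕ} (hfin : Finite {x : J // P ^ k • x = 0}) {x : J}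
    (hx : P ^ k • x = 0) : mzetE T a P hcomm k x ∈ mzetM T a P hcomm k :=
  ⟨mzetE_torsion T a P hcomm hx, mzetE_idem T a P hcomm hfin hx⟩

/-- an additive endomorphism commuting with all `T i` restricts to one of the torsion
commuting with the restricted operators. -/
theorem mzet_res_comm (f : AddMonoid.End J) (hf : ∀ i x, f (T i x) = T i (f x)) (i : ι) :
    mzetRes J P f * mzetT T P i = mzetT T P i * mzetRes J P f := by
  ext x
  exact hf i x

theorem mzetE_commute (f : AddMonoid.End J) (hf : ∀ i x, f (T i x) = T i (f x)) {k l : ℕ} {x : J}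
    (hx : P ^ l • x = 0) : f (mzetE T a P hcomm k x) = mzetE T a P hcomm k (f x) := by
  have h := mzeeE_commute (mzetT T P) (mzetT_comm T P hcomm) a P (mzetRes J P f)
    (mzet_res_comm T P f hf) k (mzetMk P x l hx)
  have h2 := congrArg Subtype.val h
  rw [mzetRes_apply, mzetE_coe T a P hcomm, mzetE_coe T a P hcomm] at h2
  exact h2

theorem mzetM_stable (f : AddMonoid.End J) (hf : ∀ i x, f (T i x) = T i (f x)) {k : ℕ} {x : J}
    (hx : x ∈ mzetM T a P hcomm k) : f x ∈ mzetM T a P hcomm k := by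
  rw [mem_mzetM] at hx ⊢
  exact ⟨by rw [← map_nsmul, hx.1, map_zero],
    by rw [← mzetE_commute T a P hcomm f hf hx.1, hx.2]⟩

theorem mzetM_le_iff {j k : ℕ} (hjk : j ≤ k) (hfin : Finite {x : J // P ^ k • x = 0}) {x : J} :
    x ∈ mzetM T a P hcomm j ↔ x ∈ mzetM T a P hcomm k ∧ P ^ j • x = 0 := by
  simp only [mem_mzetM]
  constructor
  · rintro ⟨hx, hx'⟩
    refine ⟨⟨?_, by rw [mzetE_le T a P hcomm hjk hfin hx, hx']⟩, hx⟩
    obtain ⟨d, rfl⟩ := Nat.exists_eq_add_of_le hjk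
    rw [pow_add, mul_comm, mul_smul, hx, smul_zero]
  · rintro ⟨⟨-, hx'⟩, hx⟩
    exact ⟨hx, by rw [← mzetE_le T a P hcomm hjk hfin hx, hx']⟩

theorem mzetM_succ_iff {k : ℕ} (hfin : Finite {x : J // P ^ (k + 1) • x = 0}) {x : J} :
    x ∈ mzetM T a P hcomm k ↔ x ∈ mzetM T a P hcomm (k + 1) ∧ P ^ k • x = 0 :=
  mzetM_le_iff T a P hcomm (Nat.le_succ k) hfin

theorem mzetM_le_succ {k : ℕ} (hfin : Finite {x : J // P ^ (k + 1) • x = 0}) :
    mzetM T a P hcomm k ≤ mzetM T a P hcomm (k + 1) :=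
  fun _ hx => ((mzetM_succ_iff T a P hcomm hfin).1 hx).1

theorem mzetM_finite {k : ℕ} (hfin : Finite {x : J // P ^ k • x = 0}) :
    Finite ↥(mzetM T a P hcomm k) :=
  Finite.of_injective (fun x : ↥(mzetM T a P hcomm k) => (⟨x.1, x.2.1⟩ : {x : J // P ^ k • x = 0}))
    (by
      intro x y hxy
      simp only [Subtype.mk.injEq] at hxy
      exact Subtype.ext hxy)

theorem mzetM_smul {k : ℕ} (hfin : Finite {x : J // P ^ (k + 1) • x = 0}) {x : J}
    (hx : x ∈ mzetM T a P hcomm (k + 1)) : P • x ∈ mzetM T a P hcomm k := by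
  rw [mem_mzetM] at hx ⊢
  have h1 : P ^ k • P • x = 0 := by rw [← mul_smul, ← pow_succ, hx.1]
  exact ⟨h1, by rw [← mzetE_succ T a P hcomm hfin h1, map_nsmul, hx.2]⟩

theorem mzetM_smul_surj {k : ℕ} (hfin : Finite {x : J // P ^ (k + 1) • x = 0})
    (hdiv : ∀ y : J, ∃ z, P • z = y) {y : J} (hy : y ∈ mzetM T a P hcomm k) :
    ∃ x ∈ mzetM T a P hcomm (k + 1), P • x = y := by
  obtain ⟨z, hz⟩ := hdiv y
  rw [mem_mzetM] at hy
  have hz' : P ^ (k + 1) • z = 0 := by rw [pow_succ, mul_smul, hz, hy.1]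
  refine ⟨mzetE T a P hcomm (k + 1) z, mzetE_mem_M T a P hcomm hfin hz', ?_⟩
  rw [← map_nsmul, hz, mzetE_succ T a P hcomm hfin hy.1, hy.2]

/-- (f) the `𝔪`-adic filtration of `M_k`, `𝔪 = (P, T_i - a_i)`. -/
noncomputable def mzetFil (k j : ℕ) : AddSubgroup J :=
  (mzeeFil (mzetT T P) (mzetT_comm T P hcomm) a P k j).map (mzetTors J P).subtype

theorem mzetFil_zero (k : ℕ) : mzetFil T a P hcomm k 0 = mzetM T a P hcomm k := by
  rw [mzetFil, mzeeFil_zero, mzetM_eq_map]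

theorem mzetFil_succ_le (k j : ℕ) : mzetFil T a P hcomm k (j + 1) ≤ mzetFil T a P hcomm k j :=
  AddSubgroup.map_mono (mzeeFil_succ_le _ _ a P k j)

theorem mzetFil_le (k j : ℕ) : mzetFil T a P hcomm k j ≤ mzetM T a P hcomm k := by
  rw [mzetM_eq_map]
  exact AddSubgroup.map_mono (mzeeFil_le _ _ a P k j)

theorem mzetFil_eq_bot {k : ℕ} (hfin : Finite {x : J // P ^ k • x = 0}) :
    ∃ n, mzetFil T a P hcomm k n = ⊥ := by
  obtain ⟨n, hn⟩ := mzeeFil_eq_bot (mzetT T P) (mzetT_comm T P hcomm) a P (mzet_fin P hfin)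
  exact ⟨n, by rw [mzetFil, hn, AddSubgroup.map_bot]⟩

theorem mzetFil_P_smul {k j : ℕ} {x : J} (hx : x ∈ mzetFil T a P hcomm k j) :
    P • x ∈ mzetFil T a P hcomm k (j + 1) := by
  obtain ⟨y, hy, rfl⟩ := hx
  exact ⟨P • y, mzeeFil_P_smul _ _ a P hy, by
    rw [AddSubgroup.subtype_apply, AddSubgroup.subtype_apply, AddSubgroup.coe_nsmul]⟩

theorem mzetFil_T_sub {k j : ℕ} {x : J} (hx : x ∈ mzetFil T a P hcomm k j) (i : ι) :
    T i x - a i • x ∈ mzetFil T a P hcomm k (j + 1) := by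
  obtain ⟨y, hy, rfl⟩ := hx
  refine ⟨_, mzeeFil_T_sub _ _ a P hy i, ?_⟩
  simp only [AddSubgroup.subtype_apply, AddSubgroup.coe_sub, AddSubgroup.coe_zsmul]
  rfl

theorem mzetFil_stable (f : AddMonoid.End J) (hf : ∀ i x, f (T i x) = T i (f x)) {k j : ℕ}
    {x : J} (hx : x ∈ mzetFil T a P hcomm k j) : f x ∈ mzetFil T a P hcomm k j := by
  obtain ⟨y, hy, rfl⟩ := hx
  exact ⟨mzetRes J P f y, mzeeFil_stable _ _ a P (mzetRes J P f) (mzet_res_comm T P f hf) hy, rfl⟩

include hcomm in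
/-- The package in the literal shape consumed by (B)/(H)/(JH). -/
theorem mzet_main (hfin : ∀ k, Finite {x : J // P ^ k • x = 0}) :
    ∃ e : ℕ → AddMonoid.End J,
      (∀ k, e k ∈ Subring.closure (Set.range T)) ∧
      (∀ k x, P ^ k • x = 0 → e k (e k x) = e k x) ∧
      (∀ k x, P ^ k • x = 0 → e (k + 1) x = e k x) ∧
      (∀ k x, P ^ k • x = 0 → (∀ i, T i x = a i • x) → e k x = x) ∧
      (∀ k (f : AddMonoid.End J), (∀ i x, f (T i x) = T i (f x)) →
        ∀ x, P ^ k • x = 0 → f (e k x) = e k (f x)) ∧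
      ∀ k, ∃ (r : ℕ) (N : ℕ → AddSubgroup J),
        (∀ x, x ∈ N 0 ↔ P ^ k • x = 0 ∧ e k x = x) ∧ N r = ⊥ ∧ (∀ j, N (j + 1) ≤ N j) ∧
        (∀ j, ∀ x ∈ N j, P • x ∈ N (j + 1) ∧ ∀ i, T i x - a i • x ∈ N (j + 1)) ∧
        ∀ j, ∀ f : AddMonoid.End J, (∀ i x, f (T i x) = T i (f x)) → ∀ x ∈ N j, f x ∈ N j := by
  refine ⟨mzetE T a P hcomm, mzetE_mem T a P hcomm,
    fun k x hx => mzetE_idem T a P hcomm (hfin k) hx,
    fun k x hx => mzetE_succ T a P hcomm (hfin (k + 1)) hx,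
    fun k x hx h => mzetE_eigen T a P hcomm (hfin k) hx h,
    fun k f hf x hx => mzetE_commute T a P hcomm f hf hx, fun k => ?_⟩
  obtain ⟨r, hr⟩ := mzetFil_eq_bot T a P hcomm (hfin k)
  refine ⟨r, mzetFil T a P hcomm k, fun x => ?_, hr, mzetFil_succ_le T a P hcomm k,
    fun j x hx => ⟨mzetFil_P_smul T a P hcomm hx, mzetFil_T_sub T a P hcomm hx⟩,
    fun j f hf x hx => mzetFil_stable T a P hcomm f hf hx⟩
  rw [mzetFil_zero, mem_mzetM]

end Fermat.Agent.Mazur
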